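import Mathlib
import Fermat.Agent.BaseChangeFF.Tensor

/-!
# Free and linearly disjoint extensions over an algebraically closed field
-/

set_option autoImplicit false

open scoped TensorProduct
open IntermediateField Cardinal

namespace Fermat.Agent.AVb0

universe u v

section Core

variable {K A B D Ω : Type*} [Field K] [Field A] [Field B] [CommRing D] [IsDomain D] [Field Ω]
  [Algebra K A] [Algebra K B] [Algebra A D] [Algebra A Ω]

/-- abstract form of: free extensions are linearly disjoint if the tensor product is a domain -/
theorem injective_of_algebraicIndependent (i₂ : B →+* D) (μ : D →ₐ[A] Ω)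
    (hcompat : ∀ c : K, algebraMap A D (algebraMap K A c) = i₂ (algebraMap K B c))
    (hgen : ∀ z : D, z ∈ Algebra.adjoin A (Set.range i₂))
    {ι : Type*} {t : ι → B} (ht : IsTranscendenceBasis K t)
    (hA : AlgebraicIndependent A (fun i => μ (i₂ (t i)))) : Function.Injective μ := by
  let al : MvPolynomial ι A →ₐ[A] D := MvPolynomial.aeval (fun i => i₂ (t i))
  let alg1 : Algebra (MvPolynomial ι A) D := al.toRingHom.toAlgebra
  have halg1 : ∀ p, algebraMap (MvPolynomial ι A) D p = al p := fun _ => rfl
  have hcomp : ∀ p : MvPolynomial ι A, μ (al p) = MvPolynomial.aeval (fun i => μ (i₂ (t i))) p := by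
    intro p
    exact DFunLike.congr_fun (MvPolynomial.comp_aeval (fun i => i₂ (t i)) μ) p
  have hinj : Function.Injective (MvPolynomial.aeval (R := A) (fun i => μ (i₂ (t i)))) := hA
  have hB : ∀ b : B, IsAlgebraic (MvPolynomial ι A) (i₂ b) := by
    intro b
    have h1 : IsAlgebraic (Algebra.adjoin K (Set.range t)) b := ht.isAlgebraic.isAlgebraic b
    let f : Algebra.adjoin K (Set.range t) →+* MvPolynomial ι A :=
      (MvPolynomial.map (algebraMap K A)).comp (ht.1.aevalEquiv.symm : _ →+* MvPolynomial ι K)
    have hf : Function.Injective f :=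
      (MvPolynomial.map_injective _ (algebraMap K A).injective).comp
        ht.1.aevalEquiv.symm.injective
    refine h1.ringHom_of_comp_eq f i₂ hf ?_
    apply RingHom.ext
    intro x
    obtain ⟨y, rfl⟩ := ht.1.aevalEquiv.surjective x
    have e1 : f (ht.1.aevalEquiv y) = MvPolynomial.map (algebraMap K A) y := by
      simp [f]
    have e2 : algebraMap (Algebra.adjoin K (Set.range t)) B (ht.1.aevalEquiv y) =
        MvPolynomial.aeval t y := ht.1.algebraMap_aevalEquiv y
    show al (f (ht.1.aevalEquiv y)) = i₂ (algebraMap _ B (ht.1.aevalEquiv y))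
    rw [e1, e2]
    clear e1 e2
    induction y using MvPolynomial.induction_on with
    | C a =>
      rw [MvPolynomial.map_C, MvPolynomial.aeval_C, MvPolynomial.aeval_C, ← hcompat]
    | add p q hp hq => rw [map_add, map_add, map_add, map_add, hp, hq]
    | mul_X p i hp =>
      rw [map_mul, map_mul, map_mul, map_mul, hp, MvPolynomial.map_X, MvPolynomial.aeval_X,
        MvPolynomial.aeval_X]
  have hD : ∀ z : D, IsAlgebraic (MvPolynomial ι A) z := by
    intro z
    have hz := hgen z
    induction hz using Algebra.adjoin_induction with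
    | mem x hx =>
      obtain ⟨b, rfl⟩ := hx
      exact hB b
    | algebraMap a =>
      have : algebraMap A D a = algebraMap (MvPolynomial ι A) D (MvPolynomial.C a) := by
        rw [halg1]
        exact (MvPolynomial.aeval_C _ _).symm
      rw [this]
      exact isAlgebraic_algebraMap _
    | add x y _ _ hx hy => exact hx.add hy
    | mul x y _ _ hx hy => exact hx.mul hy
  rw [injective_iff_map_eq_zero]
  intro z hz
  by_contra hne
  obtain ⟨r, hr, hdvd⟩ := (hD z).exists_nonzero_dvd (mem_nonZeroDivisors_of_ne_zero hne)
  obtain ⟨w, hw⟩ := hdvd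
  apply hr
  apply hinj
  rw [← hcomp, ← halg1, hw, map_mul, hz, zero_mul, map_zero]

end Core

section LD

variable {K : Type*} {Ω : Type*} [Field K] [Field Ω] [Algebra K Ω]

/-- Free extensions of an algebraically closed field: the tensor product embeds. -/
theorem tensor_injective_of_algebraicIndependent [IsAlgClosed K] {A B : Type*} [Field A] [Field B]
    [Algebra K A] [Algebra K B] [Algebra A Ω] [IsScalarTower K A Ω] (j : B →ₐ[K] Ω)
    {ι : Type*} {t : ι → B} (ht : IsTranscendenceBasis K t)
    (hA : AlgebraicIndependent A (fun i => j (t i))) :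
    Function.Injective (Algebra.TensorProduct.lift (Algebra.ofId A Ω) j
      (fun _ _ => Commute.all _ _) : A ⊗[K] B →ₐ[A] Ω) := by
  have hdom : IsDomain (A ⊗[K] B) := Fermat.Agent.BaseChangeFF.isDomain_tensor (k := K) (L := A)
    (F₀ := B)
  set μ : A ⊗[K] B →ₐ[A] Ω := Algebra.TensorProduct.lift (Algebra.ofId A Ω) j
    (fun _ _ => Commute.all _ _) with hμd
  let i₂ : B →+* A ⊗[K] B :=
    (Algebra.TensorProduct.includeRight : B →ₐ[K] A ⊗[K] B).toRingHom
  have hi₂ : ∀ b, i₂ b = (1 : A) ⊗ₜ b := fun _ => rfl
  refine injective_of_algebraicIndependent (K := K) (A := A) (D := A ⊗[K] B) (Ω := Ω)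
      i₂ μ ?_ ?_ ht ?_
  · intro c
    exact ((Algebra.TensorProduct.includeLeft (R := K) (S := K) (A := A) (B := B)).commutes c).trans
        ((Algebra.TensorProduct.includeRight (R := K) (A := A) (B := B)).commutes c).symm
  · intro z
    induction z using TensorProduct.induction_on with
    | zero => exact zero_mem _
    | add x y hx hy => exact add_mem hx hy
    | tmul a b =>
      have h3 : a ⊗ₜ[K] b = algebraMap A (A ⊗[K] B) a * ((1 : A) ⊗ₜ[K] b) := by
        rw [Algebra.TensorProduct.algebraMap_apply, Algebra.algebraMap_self_apply,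
          Algebra.TensorProduct.tmul_mul_tmul, mul_one, one_mul]
      rw [h3]
      exact mul_mem (Subalgebra.algebraMap_mem _ _) (Algebra.subset_adjoin ⟨b, rfl⟩)
  · have : (fun i => μ (i₂ (t i))) = fun i => j (t i) := by
      funext i
      rw [hi₂, hμd, Algebra.TensorProduct.lift_tmul, map_one, one_mul]
    rw [this]
    exact hA

/-- A transcendence basis of `B/K` which is algebraically independent over `A`:
`A` and `B` are linearly disjoint over the algebraically closed field `K`. -/
theorem linearDisjoint_of_algebraicIndependent [IsAlgClosed K] {A B : IntermediateField K Ω}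
    {ι : Type*} {t : ι → B} (ht : IsTranscendenceBasis K t)
    (hA : AlgebraicIndependent A (fun i => (t i : Ω))) : A.LinearDisjoint B := by
  rw [IntermediateField.linearDisjoint_iff', Subalgebra.linearDisjoint_iff_injective]
  have h := tensor_injective_of_algebraicIndependent (K := K) (Ω := Ω) (A := A) (B := B) B.val ht hA
  intro x y hxy
  apply h
  have hm : ∀ z : A ⊗[K] B, A.toSubalgebra.mulMap B.toSubalgebra z =
      (Algebra.TensorProduct.lift (Algebra.ofId A Ω) B.val
      (fun _ _ => Commute.all _ _) : A ⊗[K] B →ₐ[A] Ω) z := by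
    intro z
    induction z using TensorProduct.induction_on with
    | zero => rw [map_zero, map_zero]
    | add x y hx hy => rw [map_add, map_add, hx, hy]
    | tmul a b => rfl
  rw [← hm, ← hm]
  exact hxy

/-- Conversely: algebraically independent families stay so over a linearly disjoint field. -/
theorem algebraicIndependent_of_linearDisjoint {A B : IntermediateField K Ω}
    (h : A.LinearDisjoint B) {ι : Type*} {t : ι → B} (ht : AlgebraicIndependent K t) :
    AlgebraicIndependent A (fun i => (t i : Ω)) := by
  have h1 : LinearIndependent K (fun m : ι →₀ ℕ => (MvPolynomial.aeval t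
      (MvPolynomial.monomial m (1 : K)) : B)) := by
    have h0 := (MvPolynomial.basisMonomials ι K).linearIndependent
    have := h0.map' (MvPolynomial.aeval t : MvPolynomial ι K →ₐ[K] B).toLinearMap
      (LinearMap.ker_eq_bot.mpr ht)
    simpa [Function.comp_def] using this
  have h2 := h.linearIndependent_right h1
  let b := MvPolynomial.basisMonomials ι A
  let f : MvPolynomial ι A →ₗ[A] Ω :=
    (MvPolynomial.aeval (R := A) (fun i => (t i : Ω))).toLinearMap
  have hfb : ∀ m, f (b m) = ((MvPolynomial.aeval t (MvPolynomial.monomial m (1 : K)) : B) : Ω) := by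
    intro m
    simp only [f, b, MvPolynomial.coe_basisMonomials, AlgHom.toLinearMap_apply]
    rw [MvPolynomial.aeval_monomial, MvPolynomial.aeval_monomial, map_one, map_one, one_mul,
      one_mul]
    simp [Finsupp.prod]
  have h3 : LinearIndependent A (f ∘ b) := by
    convert h2 using 1
    funext m
    exact hfb m
  have h4 : Function.Injective f := by
    rw [← LinearMap.ker_eq_bot, LinearMap.ker_eq_bot']
    intro p hp
    have h5 : Finsupp.linearCombination A (f ∘ b) (b.repr p) = 0 := by
      rw [← LinearMap.map_finsupp_linearCombination, b.linearCombination_repr, hp]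
    have h6 : b.repr p = 0 := h3 (by rw [h5, map_zero])
    simpa using h6
  exact h4

end LD

end Fermat.Agent.AVb0
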