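import Fermat.Agent.AVb0.Fields

/-!
# Relative transcendence degrees of subfields
-/

set_option autoImplicit false

open scoped TensorProduct
open IntermediateField Cardinal

namespace Fermat.Agent.AVb0

universe u v

section

variable {A Ω : Type*} [Field A] [Field Ω] [Algebra A Ω]

/-- elements algebraic over a subalgebra form a field -/
theorem isAlgebraic_of_mem_adjoin (S : Subalgebra A Ω) {t : Set Ω}
    (h : ∀ b ∈ t, IsAlgebraic S b) {x : Ω} (hx : x ∈ IntermediateField.adjoin A t) :
    IsAlgebraic S x := by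
  induction hx using IntermediateField.adjoin_induction with
  | mem x hx => exact h x hx
  | algebraMap x =>
    exact isAlgebraic_algebraMap (A := Ω) (⟨algebraMap A Ω x, S.algebraMap_mem x⟩ : S)
  | add x y _ _ hx hy => exact hx.add hy
  | mul x y _ _ hx hy => exact hx.mul hy
  | inv x _ hx => exact hx.inv

theorem isAlgebraic_adjoin_tower {F F' : Type*} [Field F] [Field F'] [Algebra F Ω]
    [Algebra F' Ω] [Algebra F F'] [IsScalarTower F F' Ω] {t : Set Ω} {b : Ω}
    (hb : IsAlgebraic (Algebra.adjoin F t) b) : IsAlgebraic (Algebra.adjoin F' t) b := by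
  have h1 : Algebra.adjoin F t ≤ (Algebra.adjoin F' t).restrictScalars F :=
    Algebra.adjoin_le Algebra.subset_adjoin
  have h2 := hb.tower_top_of_subalgebra_le h1
  exact h2

theorem trdeg_add_fields (F E L : Type u) [Field F] [Field E] [Field L] [Algebra F E]
    [Algebra E L] [Algebra F L] [IsScalarTower F E L] :
    Algebra.trdeg F E + Algebra.trdeg E L = Algebra.trdeg F L := trdeg_add_eq F E

theorem trdeg_eq_zero_fields (F E : Type u) [Field F] [Field E] [Algebra F E]
    [Algebra.IsAlgebraic F E] : Algebra.trdeg F E = 0 := trdeg_eq_zero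

end

variable {K Ω : Type u} [Field K] [Field Ω] [Algebra K Ω]

/-- relative transcendence degree of `A ⊔ B` over `A` -/
noncomputable def rtd (A B : IntermediateField K Ω) : Cardinal.{u} :=
  Algebra.trdeg A (IntermediateField.adjoin A (B : Set Ω))

variable {A A' B B' C : IntermediateField K Ω}

theorem mem_adjoin_iff (A B : IntermediateField K Ω) (x : Ω) :
    x ∈ IntermediateField.adjoin A (B : Set Ω) ↔ x ∈ A ⊔ B := by
  have h : (IntermediateField.adjoin A (B : Set Ω)).restrictScalars K = A ⊔ B := by
    rw [IntermediateField.restrictScalars_adjoin_eq_sup, IntermediateField.adjoin_self]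
  rw [← h, IntermediateField.mem_restrictScalars]

/-- a basis of transcendence inside `B` -/
theorem exists_basis (A B : IntermediateField K Ω) : ∃ t : Set Ω, t ⊆ B ∧
    AlgebraicIndependent A ((↑) : t → Ω) ∧ #t = rtd A B ∧
    (∀ b ∈ B, IsAlgebraic (Algebra.adjoin A t) b) := by
  let E := IntermediateField.adjoin A (B : Set Ω)
  let s : Set E := {x | (x : Ω) ∈ B}
  have hval : Function.Injective (E.val : E →ₐ[A] Ω) := E.val.injective
  have hs1 : ∀ x ∈ IntermediateField.adjoin A s, IsAlgebraic (Algebra.adjoin A s) x := by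
    intro x hx
    refine isAlgebraic_of_mem_adjoin (Algebra.adjoin A s) ?_ hx
    intro b hb
    exact isAlgebraic_algebraMap (A := E) (⟨b, Algebra.subset_adjoin hb⟩ : Algebra.adjoin A s)
  have hs2 : IntermediateField.adjoin A s = ⊤ := by
    apply IntermediateField.map_injective E.val
    rw [IntermediateField.adjoin_map, ← AlgHom.fieldRange_eq_map, IntermediateField.fieldRange_val]
    congr 1
    ext x
    constructor
    · rintro ⟨y, hy, rfl⟩
      exact hy
    · intro hx
      exact ⟨⟨x, IntermediateField.subset_adjoin A _ hx⟩, hx, rfl⟩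
  have halg : Algebra.IsAlgebraic (Algebra.adjoin A s) E :=
    ⟨fun x => hs1 x (by rw [hs2]; trivial)⟩
  have hfaith : FaithfulSMul A E :=
    (faithfulSMul_iff_algebraMap_injective A E).mpr (algebraMap A E).injective
  obtain ⟨t, hts, ht⟩ := exists_isTranscendenceBasis_subset (R := A) s
  refine ⟨E.val '' t, ?_, ?_, ?_, ?_⟩
  · rintro _ ⟨y, hy, rfl⟩
    exact hts hy
  · have h1 : AlgebraicIndependent A (fun x : t => (E.val (x : E) : Ω)) :=
      (ht.1.map' hval)
    have h2 := h1.to_subtype_range
    have h3 : Set.range (fun x : t => (E.val (x : E) : Ω)) = E.val '' t := by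
      ext x; simp
    rw [h3] at h2
    exact h2
  · rw [Cardinal.mk_image_eq hval]
    exact ht.cardinalMk_eq_trdeg
  · intro b hb
    have h1 : IsAlgebraic (Algebra.adjoin A t) (⟨b, IntermediateField.subset_adjoin A _ hb⟩ : E) := by
      have := ht.isAlgebraic.isAlgebraic (⟨b, IntermediateField.subset_adjoin A _ hb⟩ : E)
      rwa [Subtype.range_coe] at this
    have h2 : (Algebra.adjoin A t).map E.val = Algebra.adjoin A (E.val '' t) :=
      AlgHom.map_adjoin _ _
    let f : Algebra.adjoin A t →+* Algebra.adjoin A (E.val '' t) :=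
      ((E.val.comp (Algebra.adjoin A t).val).codRestrict (Algebra.adjoin A (E.val '' t)) (by
        intro x
        rw [← h2]
        exact ⟨x, x.2, rfl⟩)).toRingHom
    exact h1.ringHom_of_comp_eq f (E.val : E →+* Ω) (fun x y hxy => by
      have := congrArg Subtype.val hxy
      exact Subtype.ext (hval this)) rfl

theorem isAlgebraic_adjoin_of_le (h : A ≤ A') {t : Set Ω} {b : Ω}
    (hb : IsAlgebraic (Algebra.adjoin A t) b) : IsAlgebraic (Algebra.adjoin A' t) b := by
  let := (IntermediateField.inclusion h).toRingHom.toAlgebra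
  have : IsScalarTower A A' Ω := IsScalarTower.of_algebraMap_eq fun _ => rfl
  exact isAlgebraic_adjoin_tower (F := A) (F' := A') hb

theorem isAlgebraic_adjoin_preimage {t : Set Ω} (ht : t ⊆ (A ⊔ B : IntermediateField K Ω))
    (h : ∀ b ∈ B, IsAlgebraic (Algebra.adjoin A t) b) :
    Algebra.IsAlgebraic (Algebra.adjoin A {x : IntermediateField.adjoin A (B : Set Ω) |
      (x : Ω) ∈ t}) (IntermediateField.adjoin A (B : Set Ω)) := by
  let E := IntermediateField.adjoin A (B : Set Ω)
  let s : Set E := {x | (x : Ω) ∈ t}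
  have hval : Function.Injective (E.val : E →ₐ[A] Ω) := E.val.injective
  have hst : E.val '' s = t := by
    ext x
    constructor
    · rintro ⟨y, hy, rfl⟩
      exact hy
    · intro hx
      exact ⟨⟨x, (mem_adjoin_iff A B x).mpr (ht hx)⟩, hx, rfl⟩
  have hmap : (Algebra.adjoin A s).map E.val = Algebra.adjoin A t := by
    rw [AlgHom.map_adjoin, hst]
  constructor
  intro x
  have h1 : IsAlgebraic (Algebra.adjoin A t) (x : Ω) :=
    isAlgebraic_of_mem_adjoin (Algebra.adjoin A t) h x.2
  have key : ∀ x : Algebra.adjoin A s, (E.val (x : E) : Ω) ∈ Algebra.adjoin A t := by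
    intro x
    rw [← hmap]
    exact ⟨x, x.2, rfl⟩
  let f : Algebra.adjoin A s →+* Algebra.adjoin A t :=
    ((E.val.comp (Algebra.adjoin A s).val).codRestrict (Algebra.adjoin A t) key).toRingHom
  refine h1.of_ringHom_of_comp_eq f (E.val : E →+* Ω) ?_ hval rfl
  rintro ⟨y, hy⟩
  rw [← hmap] at hy
  obtain ⟨z, hz, hzy⟩ := hy
  exact ⟨⟨z, hz⟩, Subtype.ext hzy⟩

/-- generating sets bound the transcendence degree -/
theorem rtd_le_mk {t : Set Ω} (ht : t ⊆ (A ⊔ B : IntermediateField K Ω))
    (h : ∀ b ∈ B, IsAlgebraic (Algebra.adjoin A t) b) : rtd A B ≤ #t := by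
  let E := IntermediateField.adjoin A (B : Set Ω)
  let s : Set E := {x | (x : Ω) ∈ t}
  have hval : Function.Injective (E.val : E →ₐ[A] Ω) := E.val.injective
  have hst : E.val '' s = t := by
    ext x
    constructor
    · rintro ⟨y, hy, rfl⟩
      exact hy
    · intro hx
      exact ⟨⟨x, (mem_adjoin_iff A B x).mpr (ht hx)⟩, hx, rfl⟩
  have halg : Algebra.IsAlgebraic (Algebra.adjoin A s) E := isAlgebraic_adjoin_preimage ht h
  have h2 := Algebra.IsAlgebraic.trdeg_le_cardinalMk A s
  refine h2.trans ?_
  rw [← hst, Cardinal.mk_image_eq hval]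

theorem rtd_anti (h : A ≤ A') (B : IntermediateField K Ω) : rtd A' B ≤ rtd A B := by
  obtain ⟨t, ht, -, hc, halg⟩ := exists_basis A B
  rw [← hc]
  exact rtd_le_mk (fun x hx => (le_sup_right : B ≤ A' ⊔ B) (ht hx))
    fun b hb => isAlgebraic_adjoin_of_le h (halg b hb)

theorem rtd_congr (h : A ⊔ B = A ⊔ C) : rtd A B = rtd A C := by
  have : IntermediateField.adjoin A (B : Set Ω) = IntermediateField.adjoin A (C : Set Ω) := by
    ext x
    rw [mem_adjoin_iff, mem_adjoin_iff, h]
  rw [rtd, rtd, this]

theorem rtd_sup_left (A B : IntermediateField K Ω) : rtd A (A ⊔ B) = rtd A B :=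
  rtd_congr (by rw [← sup_assoc, sup_idem])

theorem rtd_mono (A : IntermediateField K Ω) (h : B ≤ C) : rtd A B ≤ rtd A C := by
  have h' : IntermediateField.adjoin A (B : Set Ω) ≤ IntermediateField.adjoin A (C : Set Ω) :=
    IntermediateField.adjoin.mono _ _ _ h
  exact trdeg_le_of_injective (IntermediateField.inclusion h')
    (IntermediateField.inclusion_injective h')

theorem rtd_eq_trdeg_extendScalars (h : A ≤ B) :
    rtd A B = Algebra.trdeg A (IntermediateField.extendScalars h) := by
  have : IntermediateField.adjoin A (B : Set Ω) = IntermediateField.extendScalars h := by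
    ext x
    rw [mem_adjoin_iff, sup_eq_right.mpr h]
    exact Iff.rfl
  rw [rtd, this]

theorem rtd_eq_trdeg_inclusion (h : A ≤ B) :
    rtd A B = @Algebra.trdeg A B _ _ (IntermediateField.inclusion h).toRingHom.toAlgebra := by
  rw [rtd_eq_trdeg_extendScalars h]
  let := (IntermediateField.inclusion h).toRingHom.toAlgebra
  let e : IntermediateField.extendScalars h ≃ₐ[A] B :=
    { toFun := fun x => ⟨x, x.2⟩
      invFun := fun x => ⟨x, x.2⟩
      left_inv := fun _ => rfl
      right_inv := fun _ => rfl
      map_mul' := fun _ _ => rfl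
      map_add' := fun _ _ => rfl
      commutes' := fun _ => rfl }
  exact e.trdeg_eq

theorem rtd_bot (B : IntermediateField K Ω) : rtd ⊥ B = Algebra.trdeg K B := by
  have h := rtd_eq_trdeg_inclusion (bot_le : (⊥ : IntermediateField K Ω) ≤ B)
  rw [h]
  let := (IntermediateField.inclusion (bot_le : (⊥ : IntermediateField K Ω) ≤ B)).toRingHom.toAlgebra
  have : IsScalarTower K (⊥ : IntermediateField K Ω) B := IsScalarTower.of_algebraMap_eq fun _ => rfl
  have h1 := trdeg_add_fields K (⊥ : IntermediateField K Ω) B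
  have : Algebra.IsAlgebraic K (⊥ : IntermediateField K Ω) := inferInstance
  rw [trdeg_eq_zero_fields, zero_add] at h1
  exact h1

theorem rtd_add (hAB : A ≤ B) (hBC : B ≤ C) : rtd A B + rtd B C = rtd A C := by
  rw [rtd_eq_trdeg_inclusion hAB, rtd_eq_trdeg_inclusion hBC,
    rtd_eq_trdeg_inclusion (hAB.trans hBC)]
  let i1 := (IntermediateField.inclusion hAB).toRingHom.toAlgebra
  let i2 := (IntermediateField.inclusion hBC).toRingHom.toAlgebra
  let i3 := (IntermediateField.inclusion (hAB.trans hBC)).toRingHom.toAlgebra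
  have : IsScalarTower A B C := IsScalarTower.of_algebraMap_eq fun _ => rfl
  exact trdeg_add_fields A B C

theorem rtd_sup (A B C : IntermediateField K Ω) :
    rtd A (B ⊔ C) = rtd A B + rtd (A ⊔ B) C := by
  rw [← rtd_sup_left A B, ← rtd_sup_left (A ⊔ B) C, rtd_add le_sup_left le_sup_left,
    ← rtd_sup_left A (B ⊔ C), sup_assoc]

theorem rtd_sup_le (A B C : IntermediateField K Ω) :
    rtd A (B ⊔ C) ≤ rtd A B + rtd A C := by
  rw [rtd_sup]
  gcongr
  exact rtd_anti le_sup_left C

theorem trdeg_sup (A B : IntermediateField K Ω) :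
    Algebra.trdeg K (A ⊔ B : IntermediateField K Ω) = Algebra.trdeg K A + rtd A B := by
  rw [← rtd_bot, ← rtd_bot, rtd_sup, bot_sup_eq]

theorem rtd_le_trdeg (A B : IntermediateField K Ω) : rtd A B ≤ Algebra.trdeg K B := by
  rw [← rtd_bot]
  exact rtd_anti bot_le B

theorem trdeg_sup_le (A B : IntermediateField K Ω) :
    Algebra.trdeg K (A ⊔ B : IntermediateField K Ω) ≤ Algebra.trdeg K A + Algebra.trdeg K B := by
  rw [trdeg_sup]
  gcongr
  exact rtd_le_trdeg A B

theorem trdeg_mono (h : A ≤ B) : Algebra.trdeg K A ≤ Algebra.trdeg K B :=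
  trdeg_le_of_injective (IntermediateField.inclusion h) (IntermediateField.inclusion_injective h)

theorem trdeg_add_rtd (h : A ≤ B) : Algebra.trdeg K A + rtd A B = Algebra.trdeg K B := by
  rw [← trdeg_sup, sup_eq_right.mpr h]

theorem rtd_eq_zero_iff (A B : IntermediateField K Ω) :
    rtd A B = 0 ↔ ∀ b ∈ B, IsAlgebraic A b := by
  rw [rtd, trdeg_eq_zero_iff]
  constructor
  · intro h b hb
    have := h.isAlgebraic (⟨b, IntermediateField.subset_adjoin A _ hb⟩ :
      IntermediateField.adjoin A (B : Set Ω))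
    exact (isAlgebraic_algebraMap_iff (A := Ω)
      (IntermediateField.adjoin A (B : Set Ω)).val.injective).mpr this
  · intro h
    exact IntermediateField.isAlgebraic_adjoin fun b hb => (h b hb).isIntegral

end Fermat.Agent.AVb0
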