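import Fermat.Agent.AVb0.Free
import Fermat.Agent.AVb.Fd

/-!
# Generic points: calculus
-/

set_option autoImplicit false

open scoped TensorProduct
open IntermediateField Cardinal

universe u

namespace Fermat.Agent.AVb0

variable {K Ω : Type u} [Field K] [Field Ω] [Algebra K Ω]

variable {A A' B B' C : IntermediateField K Ω}

theorem rtd_of_linearDisjoint (h : A.LinearDisjoint B) : rtd A B = Algebra.trdeg K B := by
  refine le_antisymm (rtd_le_trdeg A B) ?_
  obtain ⟨s, hs⟩ := exists_isTranscendenceBasis K B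
  have h1 := algebraicIndependent_of_linearDisjoint h hs.1
  let E := IntermediateField.adjoin A (B : Set Ω)
  let x : s → E := fun i => ⟨((i : B) : Ω), IntermediateField.subset_adjoin A _ (i : B).2⟩
  have h2 : AlgebraicIndependent A x := by
    apply AlgebraicIndependent.of_comp E.val
    exact h1
  have h3 := h2.cardinalMk_le_trdeg
  rw [← hs.cardinalMk_eq_trdeg]
  exact h3

theorem linearDisjoint_of_rtd [IsAlgClosed K] (hfin : Algebra.trdeg K B < ℵ₀)
    (h : Algebra.trdeg K B ≤ rtd A B) : A.LinearDisjoint B := by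
  obtain ⟨s, hs⟩ := exists_isTranscendenceBasis K B
  have hsc := hs.cardinalMk_eq_trdeg
  have hsf : Finite s := by
    rw [← Cardinal.mk_lt_aleph0_iff, hsc]
    exact hfin
  let E := IntermediateField.adjoin A (B : Set Ω)
  let x : s → E := fun i => ⟨((i : B) : Ω), IntermediateField.subset_adjoin A _ (i : B).2⟩
  let t : Set Ω := Set.range (fun i : s => ((i : B) : Ω))
  have ht : t ⊆ (A ⊔ B : IntermediateField K Ω) := by
    rintro _ ⟨i, rfl⟩
    exact (le_sup_right : B ≤ A ⊔ B) (i : B).2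
  have hBt : ∀ b ∈ B, IsAlgebraic (Algebra.adjoin A t) b := by
    intro b hb
    have h1 : IsAlgebraic (Algebra.adjoin K (Set.range ((↑) : s → B))) (⟨b, hb⟩ : B) :=
      hs.isAlgebraic.isAlgebraic _
    have h2 : IsAlgebraic (Algebra.adjoin K t) b := by
      have hmap : (Algebra.adjoin K (Set.range ((↑) : s → B))).map B.val = Algebra.adjoin K t := by
        rw [AlgHom.map_adjoin, ← Set.range_comp]
        rfl
      let f : Algebra.adjoin K (Set.range ((↑) : s → B)) →+* Algebra.adjoin K t :=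
        ((B.val.comp (Algebra.adjoin K (Set.range ((↑) : s → B))).val).codRestrict
          (Algebra.adjoin K t) (by
            intro x
            rw [← hmap]
            exact ⟨x, x.2, rfl⟩)).toRingHom
      exact h1.ringHom_of_comp_eq f (B.val : B →+* Ω) (fun x y hxy => by
        have := congrArg Subtype.val hxy
        exact Subtype.ext (B.val.injective this)) rfl
    exact isAlgebraic_adjoin_tower (F := K) (F' := A) h2
  have halg : Algebra.IsAlgebraic (Algebra.adjoin A (Set.range x)) E := by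
    have h1 := isAlgebraic_adjoin_preimage ht hBt
    have h2 : {x : E | (x : Ω) ∈ t} = Set.range x := by
      ext y
      constructor
      · rintro ⟨i, hi⟩
        exact ⟨i, Subtype.ext hi⟩
      · rintro ⟨i, rfl⟩
        exact ⟨i, rfl⟩
    rw [h2] at h1
    exact h1
  have hfaith : FaithfulSMul A E :=
    (faithfulSMul_iff_algebraMap_injective A E).mpr (algebraMap A E).injective
  have hbasis : IsTranscendenceBasis A x :=
    Algebra.IsAlgebraic.isTranscendenceBasis_of_le_trdeg_of_finite A x (by rw [hsc]; exact h)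
  have hind : AlgebraicIndependent A (fun i : s => ((i : B) : Ω)) :=
    hbasis.1.map' (f := E.val) E.val.injective
  exact linearDisjoint_of_algebraicIndependent hs hind

theorem linearDisjoint_iff_rtd [IsAlgClosed K] (hfin : Algebra.trdeg K B < ℵ₀) :
    A.LinearDisjoint B ↔ rtd A B = Algebra.trdeg K B :=
  ⟨rtd_of_linearDisjoint, fun h => linearDisjoint_of_rtd hfin h.ge⟩

end Fermat.Agent.AVb0

namespace Fermat.Agent.AVn.AVar

open Fermat.Agent.AVb0

variable {K : Type u} [Field K] {g : ℕ} (A : AVar K g) {Ω : Type u} [Field Ω] [Algebra K Ω]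

variable {A} {k k' E E' T : IntermediateField K Ω} {z b a : A.Pt Ω}

theorem trdeg_fd_lt (z : A.Pt Ω) : Algebra.trdeg K (A.fd z) < ℵ₀ :=
  (A.trdeg_fd_le z).trans_lt (Cardinal.natCast_lt_aleph0)

theorem Gen.exists_hom (h : A.Gen k z) : ∃ φ : A.F →ₐ[K] Ω, A.map φ A.gen = z ∧
    φ.fieldRange = A.fd z ∧ k.LinearDisjoint (A.fd z) := by
  obtain ⟨φ, hφ, hld⟩ := h
  have : A.fd z = φ.fieldRange := by rw [← hφ, fd_map_gen]
  exact ⟨φ, hφ, this.symm, this ▸ hld⟩

theorem Gen.linearDisjoint (h : A.Gen k z) : k.LinearDisjoint (A.fd z) := by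
  obtain ⟨_, _, _, h⟩ := h.exists_hom
  exact h

theorem Gen.trdeg_fd (h : A.Gen k z) : Algebra.trdeg K (A.fd z) = g := by
  obtain ⟨φ, -, hφ, -⟩ := h.exists_hom
  rw [← hφ, ← A.trdeg_F]
  exact (AlgEquiv.trdeg_eq (AlgEquiv.ofInjectiveField φ)).symm

theorem Gen.rtd_eq (h : A.Gen k z) : rtd k (A.fd z) = g := by
  rw [rtd_of_linearDisjoint h.linearDisjoint, h.trdeg_fd]

theorem gen_of_linearDisjoint (h1 : Algebra.trdeg K (A.fd z) = g)
    (h2 : k.LinearDisjoint (A.fd z)) : A.Gen k z := by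
  obtain ⟨φ, hφ⟩ := A.exists_ev z h1
  have h3 : A.fd z = φ.fieldRange := by rw [← hφ, fd_map_gen]
  rw [IntermediateField.linearDisjoint_iff', h3, ← IntermediateField.linearDisjoint_iff'] at h2
  exact ⟨φ, hφ, h2⟩

theorem gen_iff_linearDisjoint : A.Gen k z ↔
    Algebra.trdeg K (A.fd z) = g ∧ k.LinearDisjoint (A.fd z) :=
  ⟨fun h => ⟨h.trdeg_fd, h.linearDisjoint⟩, fun h => gen_of_linearDisjoint h.1 h.2⟩

/-- generic points: relative transcendence degree `g` -/
theorem gen_iff_rtd [IsAlgClosed K] : A.Gen k z ↔ rtd k (A.fd z) = g := by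
  refine ⟨fun h => h.rtd_eq, fun h => ?_⟩
  have h1 : Algebra.trdeg K (A.fd z) = g :=
    le_antisymm (A.trdeg_fd_le z) (h.symm.le.trans (rtd_le_trdeg _ _))
  exact gen_of_linearDisjoint h1 (linearDisjoint_of_rtd (trdeg_fd_lt z) (by rw [h1, h]))

theorem gen_of_le_rtd [IsAlgClosed K] (h : (g : Cardinal) ≤ rtd k (A.fd z)) : A.Gen k z :=
  gen_iff_rtd.mpr (le_antisymm ((rtd_le_trdeg _ _).trans (A.trdeg_fd_le z)) h)

theorem gen_iff_trdeg_adjoin [IsAlgClosed K] : A.Gen k z ↔
    Algebra.trdeg k (IntermediateField.adjoin k (A.fd z : Set Ω)) = g := gen_iff_rtd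

theorem gen_iff_trdeg_sup [IsAlgClosed K] (hk : Algebra.trdeg K k < ℵ₀) : A.Gen k z ↔
    Algebra.trdeg K (k ⊔ A.fd z : IntermediateField K Ω) = Algebra.trdeg K k + g := by
  rw [gen_iff_rtd, trdeg_sup]
  exact ⟨fun h => by rw [h], fun h => Cardinal.eq_of_add_eq_add_left h hk⟩

theorem gen_congr [IsAlgClosed K] {w : A.Pt Ω} (h : k ⊔ A.fd z = k ⊔ A.fd w) :
    A.Gen k z ↔ A.Gen k w := by
  rw [gen_iff_rtd, gen_iff_rtd, rtd_congr h]

theorem Gen.anti (h : A.Gen k z) (hk : k' ≤ k) : A.Gen k' z :=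
  gen_of_linearDisjoint h.trdeg_fd (h.linearDisjoint.of_le_left hk)

theorem Gen.bot (h : A.Gen k z) : A.Gen ⊥ z := h.anti bot_le

theorem gen_neg_iff [IsAlgClosed K] : A.Gen k (-z) ↔ A.Gen k z :=
  gen_congr (by rw [fd_neg])

theorem Gen.neg [IsAlgClosed K] (h : A.Gen k z) : A.Gen k (-z) := gen_neg_iff.mpr h

theorem gen_add_iff [IsAlgClosed K] (hb : A.fd b ≤ k) : A.Gen k (z + b) ↔ A.Gen k z :=
  gen_congr (A.sup_fd_add hb z)

theorem Gen.add [IsAlgClosed K] (h : A.Gen k z) (hb : A.fd b ≤ k) : A.Gen k (z + b) :=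
  (gen_add_iff hb).mpr h

theorem Gen.add_left [IsAlgClosed K] (h : A.Gen k z) (hb : A.fd b ≤ k) : A.Gen k (b + z) := by
  rw [add_comm]
  exact h.add hb

theorem Gen.sub [IsAlgClosed K] (h : A.Gen k z) (hb : A.fd b ≤ k) : A.Gen k (z - b) :=
  (gen_congr (A.sup_fd_sub hb z)).mpr h

theorem Gen.sub_left [IsAlgClosed K] (h : A.Gen k z) (hb : A.fd b ≤ k) : A.Gen k (b - z) :=
  (gen_congr (A.sup_fd_sub' hb z)).mpr h

/-- algebraic extensions of the base field keep points generic -/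
theorem Gen.of_isAlgebraic [IsAlgClosed K] (h : A.Gen E a) (hle : E ≤ E')
    (halg : ∀ x ∈ E', IsAlgebraic E x) : A.Gen E' a := by
  apply gen_of_le_rtd
  have h1 : rtd E E' = 0 := (rtd_eq_zero_iff E E').mpr halg
  have h2 : rtd E (E' ⊔ A.fd a) = rtd E' (A.fd a) := by
    rw [rtd_sup, h1, zero_add, sup_eq_right.mpr hle]
  rw [← h2, ← h.rtd_eq]
  exact rtd_mono E le_sup_right

theorem Gen.of_sup_isAlgebraic [IsAlgClosed K] (h : A.Gen E a)
    (halg : ∀ x ∈ E', IsAlgebraic E x) : A.Gen (E ⊔ E') a := by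
  refine h.of_isAlgebraic le_sup_left fun x hx => ?_
  have h1 : rtd E (E ⊔ E') = 0 := by rw [rtd_sup_left]; exact (rtd_eq_zero_iff E E').mpr halg
  exact (rtd_eq_zero_iff E (E ⊔ E')).mp h1 x hx

/-- dimension inequality of Lemma Z -/
theorem Gen.le_trdeg_fd_add (h : A.Gen k a) {z' : A.Pt Ω} (hT : A.fd a ≤ T ⊔ A.fd z')
    {n : ℕ} (hkT : rtd k T ≤ n) : (g : Cardinal) ≤ n + Algebra.trdeg K (A.fd z') := by
  rw [← h.rtd_eq]
  calc rtd k (A.fd a) ≤ rtd k (T ⊔ A.fd z') := rtd_mono k hT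
    _ ≤ rtd k T + rtd k (A.fd z') := rtd_sup_le _ _ _
    _ ≤ n + Algebra.trdeg K (A.fd z') := add_le_add hkT (rtd_le_trdeg _ _)

end Fermat.Agent.AVn.AVar
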