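import Fermat.Agent.AVb0.Gen

/-!
# Generic points: change of the ambient field, existence
-/

set_option autoImplicit false

open scoped TensorProduct
open IntermediateField Cardinal

universe u

namespace Fermat.Agent.AVb0

variable {K Ω Ω' : Type u} [Field K] [Field Ω] [Algebra K Ω] [Field Ω'] [Algebra K Ω']

theorem linearDisjoint_of_map {A B : IntermediateField K Ω} (φ : Ω →ₐ[K] Ω')
    (h : (A.map φ).LinearDisjoint (B.map φ)) : A.LinearDisjoint B := by
  rw [IntermediateField.linearDisjoint_iff', Subalgebra.linearDisjoint_iff_injective] at h ⊢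
  have h1 : Function.Injective
      (φ.comp (A.toSubalgebra.mulMap B.toSubalgebra) : A ⊗[K] B →ₐ[K] Ω') := by
    let e : A ⊗[K] B ≃ₐ[K] (A.map φ) ⊗[K] (B.map φ) :=
      Algebra.TensorProduct.congr (IntermediateField.equivMap A φ) (IntermediateField.equivMap B φ)
    have h2 : (φ.comp (A.toSubalgebra.mulMap B.toSubalgebra) : A ⊗[K] B →ₐ[K] Ω') =
        ((A.map φ).toSubalgebra.mulMap (B.map φ).toSubalgebra).comp e.toAlgHom := by
      apply Algebra.TensorProduct.ext'
      intro a b
      show φ ((a : Ω) * (b : Ω)) = φ a * φ b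
      rw [map_mul]
    rw [h2]
    exact h.comp e.injective
  exact Function.Injective.of_comp h1

theorem linearDisjoint_map_iff {A B : IntermediateField K Ω} (φ : Ω →ₐ[K] Ω') :
    (A.map φ).LinearDisjoint (B.map φ) ↔ A.LinearDisjoint B :=
  ⟨linearDisjoint_of_map φ, fun h => h.map φ⟩

end Fermat.Agent.AVb0

namespace Fermat.Agent.AVn.AVar

open Fermat.Agent.AVb0

variable {K : Type u} [Field K] {g : ℕ} (A : AVar K g) {Ω Ω' : Type u} [Field Ω] [Algebra K Ω]
  [Field Ω'] [Algebra K Ω']

variable {A} {k k' E E' T : IntermediateField K Ω} {z b a : A.Pt Ω}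

theorem Gen.map (h : A.Gen k z) (φ : Ω →ₐ[K] Ω') : A.Gen (k.map φ) (A.map φ z) := by
  have h1 := h.trdeg_fd
  have h2 := h.linearDisjoint
  have h3 : A.fd (A.map φ z) = (A.fd z).map φ := A.fd_map φ z
  apply gen_of_linearDisjoint
  · rw [h3, ← h1]
    exact (AlgEquiv.trdeg_eq (IntermediateField.equivMap (A.fd z) φ)).symm
  · have h4 := h2.map φ
    rw [IntermediateField.linearDisjoint_iff', h3, ← IntermediateField.linearDisjoint_iff']
    exact h4

theorem gen_map_iff (φ : Ω →ₐ[K] Ω') : A.Gen (k.map φ) (A.map φ z) ↔ A.Gen k z := by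
  refine ⟨fun h => ?_, fun h => h.map φ⟩
  have h1 := h.trdeg_fd
  have h2 := h.linearDisjoint
  have h3 : A.fd (A.map φ z) = (A.fd z).map φ := A.fd_map φ z
  apply gen_of_linearDisjoint
  · rw [h3] at h1
    rw [← h1]
    exact AlgEquiv.trdeg_eq (IntermediateField.equivMap (A.fd z) φ)
  · rw [IntermediateField.linearDisjoint_iff', h3, ← IntermediateField.linearDisjoint_iff'] at h2
    exact linearDisjoint_of_map φ h2

end Fermat.Agent.AVn.AVar
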